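import Fermat.Agent.S40x.Level.HeckeTransport
import Fermat.Agent.S40x.R2.KummerPeu

/-!
# P-S44/S40, GEO' step G0 (helper60): LEVEL TRANSFER of the data of `s44_geo'` to the good level

Board `S44_GEO` (helper22), step G0.  `N = M' p` (`p` odd prime, `p ∤ M'`), `M₀ := lcm M' 4`,
`N̂ := M₀ p` (a good level of `S33x`/`S34x`: `4 ∣ M₀`, `p ∤ M₀`), `π^* : J₀(N)[p] → J₀(N̂)[p]`
(`S33x/Consumer/LevelTransport.pullbackTors`), `V̂ := π^* V`, `L̂ := π^* L`.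

* `GeoShape p N B V L` : the local shape of `s44_geo'` (`L ≤ V`, `L ≠ V`, `#L = p`, `V` Galois
  stable, (hb), (hc), (hd) in the `I°`-form with `Kummer.unitFixed B`) at an arbitrary level `N`;
* `GeoShape.map` : the shape passes to `(π^* V, π^* L)` at a good level `M = lcm N 4` or `lcm N 9`;
* `EigenAt N m S a V` : elementwise eigen-relations `T_ℓ x = a_ℓ x` for the primes `ℓ ∤ N`, `ℓ ∉ S`,
  in the Gateway vocabulary (`heckeOperatorAlong`, no Hecke algebra); `thetaVal θ` the eigenvalue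
  function `ℓ ↦ (θ T_ℓ).val`; `eigenAt_of_eta` (from `hVθ`), `EigenAt.map` (level transfer);
* `goodLevel`-arithmetic: `four_dvd_lcm`, `not_dvd_lcm_four`, `not_dvd_goodLevel`;
* **`g0`** : the packaged statement consumed by `S40x/Geo/Main`.
-/

set_option autoImplicit false
set_option linter.unusedSectionVars false
set_option linter.style.haveILetI false

noncomputable section

open ModularCurve AlgebraicCurve CuspForm

namespace Fermat.Agent.S40x.Level.G0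

open Fermat.Agent.Gateway.Descent Fermat.Agent.Gateway.S31Red Fermat.Agent.Gateway.Hecke
open Fermat.Agent.S33x.Consumer.LevelTransport Fermat.Agent.S40x.Level.BaseChangeTors
open Fermat.Agent.S40x.Level.HeckeTransport

local notation "Qb" => AlgebraicClosure ℚ
local notation "Γℚ" => (AlgebraicClosure ℚ ≃ₐ[ℚ] AlgebraicClosure ℚ)

/-! ### The local shape -/

/-- **The local shape of `s44_geo'`** for a pair `L ≤ V` of subgroups of `J₀(N)[p]` and a place `B`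
of `ℚ̄`. -/
structure GeoShape (p N : ℕ) (B : ValuationSubring Qb) (V L : AddSubgroup (JTors N (p ^ 1))) :
    Prop where
  le : L ≤ V
  ne : L ≠ V
  card : Nat.card L = p
  gal : ∀ σ : Γℚ, ∀ x ∈ V, galTors N (p ^ 1) σ x ∈ V
  hb : ∀ σ ∈ B.inertiaSubgroupIn ℚ, ∀ x ∈ V, galTors N (p ^ 1) σ x - x ∈ L
  hc : ∀ σ ∈ B.inertiaSubgroupIn ℚ, ∀ a : ℕ, (∀ ζ : Qb, ζ ^ p = 1 → σ ζ = ζ ^ a) →
    ∀ s ∈ L, galTors N (p ^ 1) σ s = a • s
  hd : ∀ τ ∈ B.inertiaSubgroupIn ℚ,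
    (∀ b : Qb, b ^ p ∈ Fermat.Agent.S40x.Kummer.unitFixed B → τ b = b) →
      ∀ x ∈ V, galTors N (p ^ 1) τ x = x

variable {N M : ℕ} [NeZero N] [NeZero M]

/-- the image of a subgroup under an injective map has the same cardinality -/
theorem card_map_pullbackTors (hM : M = Nat.lcm N 4 ∨ M = Nat.lcm N 9) (m : ℕ)
    (V : AddSubgroup (JTors N m)) :
    Nat.card (V.map (pullbackTors (dvd_of_eq_lcm_or hM) m)) = Nat.card V :=
  Nat.card_congr
    (AddSubgroup.equivMapOfInjective V (pullbackTors (dvd_of_eq_lcm_or hM) m)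
      (pullbackTors_injective hM m)).toEquiv.symm

/-- **G0, local shape**: the shape passes to the good level. -/
theorem GeoShape.map {p : ℕ} {B : ValuationSubring Qb} {V L : AddSubgroup (JTors N (p ^ 1))}
    (h : GeoShape p N B V L) (hM : M = Nat.lcm N 4 ∨ M = Nat.lcm N 9) :
    GeoShape p M B (V.map (pullbackTors (dvd_of_eq_lcm_or hM) (p ^ 1)))
      (L.map (pullbackTors (dvd_of_eq_lcm_or hM) (p ^ 1))) where
  le := AddSubgroup.map_mono h.le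
  ne := map_pullbackTors_ne hM (p ^ 1) V L h.ne
  card := by rw [card_map_pullbackTors hM (p ^ 1) L, h.card]
  gal σ := map_pullbackTors_galTors_mem (dvd_of_eq_lcm_or hM) (p ^ 1) V h.gal σ
  hb σ hσ := map_pullbackTors_sub_mem (dvd_of_eq_lcm_or hM) (p ^ 1) V L σ (h.hb σ hσ)
  hc σ hσ a ha := map_pullbackTors_smul_eq (dvd_of_eq_lcm_or hM) (p ^ 1) L σ a (h.hc σ hσ a ha)
  hd τ hτ hτ' := map_pullbackTors_fixed (dvd_of_eq_lcm_or hM) (p ^ 1) V τ (h.hd τ hτ hτ')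

/-! ### Elementwise eigen-relations -/

/-- **Elementwise eigen-relations** `T_ℓ x = a_ℓ x` (`ℓ ∤ N` prime, `ℓ ∉ S`) on a subgroup of the
`m`-torsion, in the Gateway vocabulary. -/
def EigenAt (N : ℕ) [NeZero N] (m : ℕ) (S : Finset ℕ) (a : ℕ → ℕ)
    (V : AddSubgroup (JTors N m)) : Prop :=
  ∀ (ℓ : ℕ) (hℓ : ℓ.Prime), ¬ ℓ ∣ N → ℓ ∉ S → ∀ x ∈ V,
    haveI : NeZero ℓ := ⟨hℓ.ne_zero⟩
    heckeOperatorAlong Qb N ℓ (x : JZero N) = a ℓ • (x : JZero N)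

/-- the eigenvalue function `ℓ ↦ (θ T_ℓ).val` of a character of the Hecke algebra -/
def thetaVal {p : ℕ} {S : Finset ℕ} (θ : heckeAlgebra N 2 (↑S : Set ℕ) →+* ZMod p) (ℓ : ℕ) : ℕ :=
  if h : ℓ.Prime ∧ ¬ ℓ ∣ N ∧ ℓ ∉ (↑S : Set ℕ) then (θ (heckeAlgebra.T h.1 h.2.1 h.2.2)).val else 0

theorem thetaVal_eq {p : ℕ} {S : Finset ℕ} (θ : heckeAlgebra N 2 (↑S : Set ℕ) →+* ZMod p)
    {ℓ : ℕ} (hℓ : ℓ.Prime) (hℓN : ¬ ℓ ∣ N) (hℓS : ℓ ∉ (↑S : Set ℕ)) :
    thetaVal θ ℓ = (θ (heckeAlgebra.T hℓ hℓN hℓS)).val := by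
  rw [thetaVal, dif_pos ⟨hℓ, hℓN, hℓS⟩]

theorem thetaVal_cast {p : ℕ} [NeZero p] {S : Finset ℕ}
    (θ : heckeAlgebra N 2 (↑S : Set ℕ) →+* ZMod p)
    {ℓ : ℕ} (hℓ : ℓ.Prime) (hℓN : ¬ ℓ ∣ N) (hℓS : ℓ ∉ (↑S : Set ℕ)) :
    ((thetaVal θ ℓ : ℕ) : ZMod p) = θ (heckeAlgebra.T hℓ hℓN hℓS) := by
  rw [thetaVal_eq θ hℓ hℓN hℓS, ZMod.natCast_zmod_val]

/-- **From `hVθ` to the elementwise relations**, `ℕ`-scalar form (no module structure). -/
theorem eigenAt_of_eta_val {p : ℕ} {S : Finset ℕ} (E : HeckeTorsionAction N S)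
    {m : ℕ} (hm : 0 < m)
    (θ : heckeAlgebra N 2 (↑S : Set ℕ) →+* ZMod p) (V : AddSubgroup (JTors N m))
    (hVθ : ∀ x ∈ V, ∀ t, E.eta m hm t x = (θ t).val • x) :
    EigenAt N m S (thetaVal θ) V := by
  intro ℓ hℓ hℓN hℓS x hx
  have hℓS' : ℓ ∉ (↑S : Set ℕ) := by exact_mod_cast hℓS
  have h1 := hVθ x hx (heckeAlgebra.T hℓ hℓN hℓS')
  rw [← thetaVal_eq θ hℓ hℓN hℓS'] at h1
  have h3 : ((E.eta m hm (heckeAlgebra.T hℓ hℓN hℓS') x : JTors N m) : JZero N) =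
      ((thetaVal θ ℓ • x : JTors N m) : JZero N) := congrArg Subtype.val h1
  rw [E.eta_T, AddSubgroupClass.coe_nsmul] at h3
  exact h3

/-- **From `hVθ` to the elementwise relations** (any `𝔽_p`-module structure on the torsion). -/
theorem eigenAt_of_eta {p : ℕ} [NeZero p] {S : Finset ℕ} (E : HeckeTorsionAction N S)
    {m : ℕ} (hm : 0 < m) [instMod : Module (ZMod p) (JTors N m)]
    (θ : heckeAlgebra N 2 (↑S : Set ℕ) →+* ZMod p) (V : AddSubgroup (JTors N m))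
    (hVθ : ∀ x ∈ V, ∀ t, E.eta m hm t x = θ t • x) :
    EigenAt N m S (thetaVal θ) V := by
  refine eigenAt_of_eta_val E hm θ V fun x hx t => ?_
  rw [hVθ x hx t, ← Nat.cast_smul_eq_nsmul (ZMod p), ZMod.natCast_zmod_val]

/-- **G0, Hecke**: the elementwise relations pass to `π^* V` (for the primes not dividing the big
level). -/
theorem EigenAt.map {m : ℕ} {S : Finset ℕ} {a : ℕ → ℕ} {V : AddSubgroup (JTors N m)}
    (hV : EigenAt N m S a V) (h : N ∣ M) :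
    EigenAt M m S a (V.map (pullbackTors h m)) := by
  rintro ℓ hℓ hℓM hℓS y ⟨x, hx, rfl⟩
  haveI : NeZero ℓ := ⟨hℓ.ne_zero⟩
  have hℓN : ¬ ℓ ∣ N := fun hd => hℓM (hd.trans h)
  rw [pullbackTors_heckeOperatorAlong h hℓ hℓM m x, hV ℓ hℓ hℓN hℓS x hx, map_nsmul,
    coe_pullbackTors]

/-! ### The arithmetic of the good level `lcm M' 4 * p` -/

theorem four_dvd_lcm (M' : ℕ) : 4 ∣ Nat.lcm M' 4 := Nat.dvd_lcm_right M' 4

theorem neZero_lcm_four (M' : ℕ) [NeZero M'] : NeZero (Nat.lcm M' 4) :=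
  ⟨Nat.lcm_ne_zero (NeZero.ne M') (by norm_num)⟩

/-- a prime dividing `lcm M' 4` divides `M'` or is `2`. -/
theorem prime_dvd_lcm_four {M' ℓ : ℕ} (hℓ : ℓ.Prime) (h : ℓ ∣ Nat.lcm M' 4) : ℓ ∣ M' ∨ ℓ = 2 := by
  have h1 : ℓ ∣ M' * 4 := h.trans (Nat.lcm_dvd_mul M' 4)
  rcases (Nat.Prime.dvd_mul hℓ).mp h1 with h2 | h2
  · exact Or.inl h2
  · right
    have h3 : ℓ ∣ 2 ^ 2 := by norm_num; exact h2
    exact (Nat.prime_dvd_prime_iff_eq hℓ Nat.prime_two).mp (hℓ.dvd_of_dvd_pow h3)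

theorem not_dvd_lcm_four {M' p : ℕ} (hp : p.Prime) (hp2 : p ≠ 2) (hpM' : ¬ p ∣ M') :
    ¬ p ∣ Nat.lcm M' 4 := fun h =>
  (prime_dvd_lcm_four hp h).elim hpM' hp2

/-- the primes outside `S` do not divide the good level. -/
theorem not_dvd_goodLevel {M' p ℓ : ℕ} {S : Finset ℕ} (h2S : 2 ∈ S)
    (hNS : ∀ q : ℕ, q.Prime → q ∣ M' * p → q ∈ S) (hℓ : ℓ.Prime) (hℓS : ℓ ∉ S) :
    ¬ ℓ ∣ Nat.lcm M' 4 * p := by
  intro h
  rcases (Nat.Prime.dvd_mul hℓ).mp h with h1 | h1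
  · rcases prime_dvd_lcm_four hℓ h1 with h2 | h2
    · exact hℓS (hNS ℓ hℓ (h2.trans (dvd_mul_right M' p)))
    · exact hℓS (h2 ▸ h2S)
  · exact hℓS (hNS ℓ hℓ (h1.trans (dvd_mul_left p M')))

/-- `lcm M' 4 * p` is the good level of `M' * p` (`p` odd). -/
theorem goodLevel_eq {M' p : ℕ} (hp : p.Prime) (hp2 : p ≠ 2) :
    Nat.lcm M' 4 * p = Nat.lcm (M' * p) 4 ∨ Nat.lcm M' 4 * p = Nat.lcm (M' * p) 9 := by
  left
  have : Nat.Coprime p 2 := (Nat.coprime_primes hp Nat.prime_two).mpr hp2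
  rw [lcm_mul_right_of_coprime M' (show Nat.Coprime p 4 from Nat.Coprime.pow_right 2 this)]

/-! ### The packaged statement -/

/-- **G0 of `s44_geo'`**, `ℕ`-scalar form of `hVθ` (no module structure on the torsion). -/
theorem g0_val {p M' : ℕ} [NeZero M'] [NeZero p] (hp : p.Prime) (hp2 : p ≠ 2)
    (S : Finset ℕ) (E : HeckeTorsionAction (M' * p) S)
    (θ : heckeAlgebra (M' * p) 2 (↑S : Set ℕ) →+* ZMod p)
    (B : ValuationSubring Qb) (V L : AddSubgroup (JTors (M' * p) (p ^ 1)))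
    (hshape : GeoShape p (M' * p) B V L)
    (hVθ : ∀ x ∈ V, ∀ t, E.eta (p ^ 1) (pow_pos hp.pos 1) t x = (θ t).val • x) :
    haveI := neZero_lcm_four M'
    GeoShape p (Nat.lcm M' 4 * p) B
        (V.map (pullbackTors (Nat.mul_dvd_mul_right (Nat.dvd_lcm_left M' 4) p) (p ^ 1)))
        (L.map (pullbackTors (Nat.mul_dvd_mul_right (Nat.dvd_lcm_left M' 4) p) (p ^ 1))) ∧
      EigenAt (Nat.lcm M' 4 * p) (p ^ 1) S (thetaVal θ)
        (V.map (pullbackTors (Nat.mul_dvd_mul_right (Nat.dvd_lcm_left M' 4) p) (p ^ 1))) ∧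
      Nat.card (V.map (pullbackTors (Nat.mul_dvd_mul_right (Nat.dvd_lcm_left M' 4) p) (p ^ 1))) =
        Nat.card V := by
  haveI := neZero_lcm_four M'
  have hM := goodLevel_eq (M' := M') hp hp2
  exact ⟨hshape.map hM, (eigenAt_of_eta_val E (pow_pos hp.pos 1) θ V hVθ).map _,
    card_map_pullbackTors hM (p ^ 1) V⟩

/-- **G0 of `s44_geo'`.**  `N = M' p`, `N̂ = lcm M' 4 * p`; from the local shape of `(V, L)` and the
eigen-property `hVθ` at level `N` to the local shape of `(V̂, L̂)` and the elementwise eigen-relations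
`T_ℓ x̂ = θ(T_ℓ) x̂` (`ℓ ∉ S`) at the good level `N̂`; moreover `#V̂ = #V`. -/
theorem g0 {p M' : ℕ} [NeZero M'] [NeZero p] (hp : p.Prime) (hp2 : p ≠ 2)
    (S : Finset ℕ) (E : HeckeTorsionAction (M' * p) S)
    [instMod : Module (ZMod p) (JTors (M' * p) (p ^ 1))]
    (θ : heckeAlgebra (M' * p) 2 (↑S : Set ℕ) →+* ZMod p)
    (B : ValuationSubring Qb) (V L : AddSubgroup (JTors (M' * p) (p ^ 1)))
    (hshape : GeoShape p (M' * p) B V L)
    (hVθ : ∀ x ∈ V, ∀ t, E.eta (p ^ 1) (pow_pos hp.pos 1) t x = θ t • x) :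
    haveI := neZero_lcm_four M'
    GeoShape p (Nat.lcm M' 4 * p) B
        (V.map (pullbackTors (Nat.mul_dvd_mul_right (Nat.dvd_lcm_left M' 4) p) (p ^ 1)))
        (L.map (pullbackTors (Nat.mul_dvd_mul_right (Nat.dvd_lcm_left M' 4) p) (p ^ 1))) ∧
      EigenAt (Nat.lcm M' 4 * p) (p ^ 1) S (thetaVal θ)
        (V.map (pullbackTors (Nat.mul_dvd_mul_right (Nat.dvd_lcm_left M' 4) p) (p ^ 1))) ∧
      Nat.card (V.map (pullbackTors (Nat.mul_dvd_mul_right (Nat.dvd_lcm_left M' 4) p) (p ^ 1))) =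
        Nat.card V := by
  haveI := neZero_lcm_four M'
  have hM := goodLevel_eq (M' := M') hp hp2
  exact ⟨hshape.map hM, (eigenAt_of_eta E (pow_pos hp.pos 1) θ V hVθ).map _,
    card_map_pullbackTors hM (p ^ 1) V⟩

end Fermat.Agent.S40x.Level.G0
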