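import Fermat.Agent.S35x.Degeneracy.SquaresPic

/-!
# P-S44/S40, block R1/S, leaf (LT2) (helper60): LEVEL TRANSFER = base change of the degeneracy
push-forwards along the level inclusion `F_N ⊆ F_M`

`N ∣ M`, `q ∤ M` prime.  In the commutative square of function fields

```
   F_N  --a-->  F_{Nq}
    |              |
    v              v
   F_M  --a₁--> F_{Mq}
```

(`a = α` or `β` at level `(N, q)`, `a₁` the map of the same type at level `(M, q)`, vertical maps =
level inclusions) the norms are compatible (power bases `1, b(j), …, b(j)^q` on both rows,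
`S35x/Degeneracy/SquaresBasis.exists_powBasis_of_degPair`), hence base change
(`Gateway/Descent/HeckeCompat.pullbackAlong_pushforwardAlong`):

* `pullbackAlong_pushforwardAlong_of_degPair` : `incl^* ∘ a_* = a₁_* ∘ incl'^*` on divisors;
* `pullbackAlong_pushforwardAlong_alpha`, `pullbackAlong_pushforwardAlong_beta`;
* `degAlpha_pullbackPic`, `degBeta_pullbackPic` :
  `N_α^{(M)} (π'^* x) = π^* (N_α^{(N)} x)` on `J₀`, `π : X₀(M) → X₀(N)`, `π' : X₀(Mq) → X₀(Nq)`;
* `degAlpha_eq_zero_iff_pullbackPic`, `degBeta_eq_zero_iff_pullbackPic` : for a good level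
  `M = lcm N 4` or `lcm N 9` (where `π^*` is injective): `N_α x = 0 ↔ N_α (π'^* x) = 0`.

Consumer (skeleton (G) of P-S44): for `V ≤ J₀(N q)[p]` and `V̂ := π'^* V ≤ J₀(M q)[p]`,
`(α_*, β_*) V = 0` at level `N q` iff `(α_*, β_*) V̂ = 0` at the good level `M q`.
-/

set_option autoImplicit false
set_option linter.unusedSectionVars false
set_option linter.style.haveILetI false

noncomputable section

open Polynomial ModularCurve AlgebraicCurve IntermediateField

namespace Fermat.Agent.S40x.Level.BaseChange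

open Fermat.Agent.S24 Fermat.Agent.S24.Setup
open Fermat.Agent.S28 Fermat.Agent.S28.Tower Fermat.Agent.Gateway.Hecke Fermat.Agent.Gateway.ESC
open Fermat.Agent.Gateway Fermat.Agent.Gateway.Descent Fermat.Agent.S35x.Degeneracy

variable {N M q : ℕ} [NeZero N] [NeZero M] [NeZero q]

/-- **The generic square for the level inclusion.**  `(a, b)`, `(a₁, b₁)` pairs of degeneracy maps
of the same type (`(α, β)` or `(β, α)`) at the levels `N` and `M` (`N ∣ M`), described on
`q`-expansions by `S`, `S'`. -/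
theorem pullbackAlong_pushforwardAlong_of_degPair
    (h : N ∣ M) (hq : q.Prime) (hqM : ¬ q ∣ M)
    (S S' : LaurentSeries Kbar → LaurentSeries Kbar)
    (a b : FF N →ₐ[Kbar] FF (N * q)) (a₁ b₁ : FF M →ₐ[Kbar] FF (M * q))
    (ha : ∀ x, ((a x : FF (N * q)) : LaurentSeries Kbar) = S x)
    (hb : ∀ x, ((b x : FF (N * q)) : LaurentSeries Kbar) = S' x)
    (ha₁ : ∀ x, ((a₁ x : FF (M * q)) : LaurentSeries Kbar) = S x)
    (hb₁ : ∀ x, ((b₁ x : FF (M * q)) : LaurentSeries Kbar) = S' x)
    (hab : DegPair Kbar N q a b) (hab₁ : DegPair Kbar M q a₁ b₁)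
    (hfin : FiniteAlong Kbar a) (hdeg : finrankAlong Kbar a = q + 1)
    (hfin₁ : FiniteAlong Kbar a₁) (hdeg₁ : finrankAlong Kbar a₁ = q + 1)
    (hai : a.toRingHom.IsIntegral) (ha₁i : a₁.toRingHom.IsIntegral)
    (D : Divisor Kbar (FF (N * q))) :
    Divisor.pullbackAlong (Incl.incl h) (isIntegral_incl h) (Divisor.pushforwardAlong a hai D) =
      Divisor.pushforwardAlong a₁ ha₁i
        (Divisor.pullbackAlong (Incl.incl (Nat.mul_dvd_mul_right h q))
          (isIntegral_incl (Nat.mul_dvd_mul_right h q)) D) := by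
  classical
  have h' : N * q ∣ M * q := Nat.mul_dvd_mul_right h q
  have hqN : ¬ q ∣ N := fun hqN => hqM (hqN.trans h)
  haveI := hasPrincipalDivisors_FF (N * q)
  haveI := hasPrincipalDivisors_FF M
  haveI := hasPrincipalDivisors_FF (M * q)
  refine pullbackAlong_pushforwardAlong a (Incl.incl h) a₁ (Incl.incl h')
    hai (isIntegral_incl h) ha₁i (isIntegral_incl h') hfin (finiteAlong_incl h) hfin₁
    (finiteAlong_incl h') ?_ ?_ D
  · -- the commutative square
    intro x
    apply Subtype.ext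
    rw [Incl.coe_incl, ha, ha₁, Incl.coe_incl]
  · -- norm compatibility
    obtain ⟨B, hB⟩ := exists_powBasis_of_degPair hab hfin hdeg hq hqN one_ne_zero (one_dvd N)
      (Nat.coprime_one_left q)
    obtain ⟨B₁, hB₁⟩ := exists_powBasis_of_degPair hab₁ hfin₁ hdeg₁ hq hqM one_ne_zero (one_dvd M)
      (Nat.coprime_one_left q)
    intro t
    letI := algebraAlong a
    letI := algebraAlong a₁
    refine HeckeSq.norm_map_of_basis_aux (Incl.incl h).toRingHom (Incl.incl h').toRingHom ?_ B B₁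
      ?_ t
    · intro e
      apply Subtype.ext
      show ((Incl.incl h' (a e) : FF (M * q)) : LaurentSeries Kbar) =
        ((a₁ (Incl.incl h e) : FF (M * q)) : LaurentSeries Kbar)
      rw [Incl.coe_incl, ha, ha₁, Incl.coe_incl]
    · intro j
      rw [hB₁, hB]
      show b₁ (genS Kbar M one_ne_zero (one_dvd M)) ^ (j : ℕ) =
        Incl.incl h' (b (genS Kbar N one_ne_zero (one_dvd N)) ^ (j : ℕ))
      rw [map_pow]
      congr 1
      apply Subtype.ext
      rw [Incl.coe_incl, hb₁, hb]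
      rfl

/-! ### The two squares -/

/-- **(LT2), divisor level, `α`.** `π^* ∘ α_* = α_* ∘ π'^*`. -/
theorem pullbackAlong_pushforwardAlong_alpha (h : N ∣ M) (hq : q.Prime) (hqM : ¬ q ∣ M)
    (hαN : HeckeAlphaBarIntegral Kbar N q) (hαM : HeckeAlphaBarIntegral Kbar M q)
    (D : Divisor Kbar (FF (N * q))) :
    Divisor.pullbackAlong (Incl.incl h) (isIntegral_incl h)
        (Divisor.pushforwardAlong (heckeAlphaBar Kbar N q) hαN D) =
      Divisor.pushforwardAlong (heckeAlphaBar Kbar M q) hαM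
        (Divisor.pullbackAlong (Incl.incl (Nat.mul_dvd_mul_right h q))
          (isIntegral_incl (Nat.mul_dvd_mul_right h q)) D) := by
  haveI : CharZero Kbar := charZero_of_ratAlgebra Kbar
  obtain ⟨ζ, hζ⟩ := exists_prim_unit Kbar q hq.ne_zero
  have hqN : ¬ q ∣ N := fun hqN => hqM (hqN.trans h)
  exact pullbackAlong_pushforwardAlong_of_degPair h hq hqM id (qExpand Kbar q)
    (heckeAlphaBar Kbar N q) (heckeBetaBar Kbar N q)
    (heckeAlphaBar Kbar M q) (heckeBetaBar Kbar M q)
    (fun _ => rfl) (fun _ => rfl) (fun _ => rfl) (fun _ => rfl)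
    (degPair_alpha_beta Kbar N q hq ζ hζ) (degPair_alpha_beta Kbar M q hq ζ hζ)
    (finiteAlong_alpha Kbar N q) (finrankAlong_alpha_eq N hq hqN)
    (finiteAlong_alpha Kbar M q) (finrankAlong_alpha_eq M hq hqM)
    hαN hαM D

/-- **(LT2), divisor level, `β`.** `π^* ∘ β_* = β_* ∘ π'^*`. -/
theorem pullbackAlong_pushforwardAlong_beta (h : N ∣ M) (hq : q.Prime) (hqM : ¬ q ∣ M)
    (hβN : HeckeBetaBarIntegral Kbar N q) (hβM : HeckeBetaBarIntegral Kbar M q)
    (D : Divisor Kbar (FF (N * q))) :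
    Divisor.pullbackAlong (Incl.incl h) (isIntegral_incl h)
        (Divisor.pushforwardAlong (heckeBetaBar Kbar N q) hβN D) =
      Divisor.pushforwardAlong (heckeBetaBar Kbar M q) hβM
        (Divisor.pullbackAlong (Incl.incl (Nat.mul_dvd_mul_right h q))
          (isIntegral_incl (Nat.mul_dvd_mul_right h q)) D) := by
  haveI : CharZero Kbar := charZero_of_ratAlgebra Kbar
  obtain ⟨ζ, hζ⟩ := exists_prim_unit Kbar q hq.ne_zero
  have hqN : ¬ q ∣ N := fun hqN => hqM (hqN.trans h)
  exact pullbackAlong_pushforwardAlong_of_degPair h hq hqM (qExpand Kbar q) id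
    (heckeBetaBar Kbar N q) (heckeAlphaBar Kbar N q)
    (heckeBetaBar Kbar M q) (heckeAlphaBar Kbar M q)
    (fun _ => rfl) (fun _ => rfl) (fun _ => rfl) (fun _ => rfl)
    (degPair_beta_alpha Kbar N q hq ζ hζ) (degPair_beta_alpha Kbar M q hq ζ hζ)
    (finiteAlong_beta Kbar N q)
    (finrankAlong_beta (finrankAlong_alpha_eq N hq hqN) hq hqN ζ hζ)
    (finiteAlong_beta Kbar M q)
    (finrankAlong_beta (finrankAlong_alpha_eq M hq hqM) hq hqM ζ hζ)
    hβN hβM D

/-! ### `J₀` level -/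

/-- **(LT2)** `N_α^{(M)} ∘ π'^* = π^* ∘ N_α^{(N)}` on `J₀(N q)`. -/
theorem degAlpha_pullbackPic (h : N ∣ M) (hq : q.Prime) (hqM : ¬ q ∣ M) (x : JZero (N * q)) :
    degAlpha M q (pullbackPic (Nat.mul_dvd_mul_right h q) x) = pullbackPic h (degAlpha N q x) := by
  haveI := hasPrincipalDivisors_FF M
  haveI := hasPrincipalDivisors_FF (M * q)
  obtain ⟨D, rfl⟩ := Pic0.mk_surjective x
  rw [pullbackPic_mk, degAlpha_mk, degAlpha_mk, pullbackPic_mk]
  congr 1
  apply Subtype.ext
  exact (pullbackAlong_pushforwardAlong_alpha h hq hqM (heckeAlphaBarIntegral Kbar N q)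
    (heckeAlphaBarIntegral Kbar M q) (D : Divisor Kbar (FF (N * q)))).symm

/-- **(LT2)** `N_β^{(M)} ∘ π'^* = π^* ∘ N_β^{(N)}` on `J₀(N q)`. -/
theorem degBeta_pullbackPic (h : N ∣ M) (hq : q.Prime) (hqM : ¬ q ∣ M) (x : JZero (N * q)) :
    degBeta M q (pullbackPic (Nat.mul_dvd_mul_right h q) x) = pullbackPic h (degBeta N q x) := by
  haveI := hasPrincipalDivisors_FF M
  haveI := hasPrincipalDivisors_FF (M * q)
  obtain ⟨D, rfl⟩ := Pic0.mk_surjective x
  rw [pullbackPic_mk, degBeta_mk, degBeta_mk, pullbackPic_mk]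
  congr 1
  apply Subtype.ext
  exact (pullbackAlong_pushforwardAlong_beta h hq hqM (heckeBetaBarIntegral Kbar N q)
    (heckeBetaBarIntegral Kbar M q) (D : Divisor Kbar (FF (N * q)))).symm

/-- **(LT2), consumer form.** At a good level `M = lcm N 4` or `lcm N 9`:
`N_α x = 0 ↔ N_α (π'^* x) = 0`. -/
theorem degAlpha_eq_zero_iff_pullbackPic (hM : M = Nat.lcm N 4 ∨ M = Nat.lcm N 9)
    (hq : q.Prime) (hqM : ¬ q ∣ M) (x : JZero (N * q)) :
    degAlpha N q x = 0 ↔
      degAlpha M q (pullbackPic (Nat.mul_dvd_mul_right (dvd_of_eq_lcm_or hM) q) x) = 0 := by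
  rw [degAlpha_pullbackPic (dvd_of_eq_lcm_or hM) hq hqM]
  constructor
  · intro h0
    rw [h0, map_zero]
  · intro h0
    exact pullbackPic_injective hM (by rw [h0, map_zero])

/-- **(LT2), consumer form.** At a good level `M = lcm N 4` or `lcm N 9`:
`N_β x = 0 ↔ N_β (π'^* x) = 0`. -/
theorem degBeta_eq_zero_iff_pullbackPic (hM : M = Nat.lcm N 4 ∨ M = Nat.lcm N 9)
    (hq : q.Prime) (hqM : ¬ q ∣ M) (x : JZero (N * q)) :
    degBeta N q x = 0 ↔
      degBeta M q (pullbackPic (Nat.mul_dvd_mul_right (dvd_of_eq_lcm_or hM) q) x) = 0 := by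
  rw [degBeta_pullbackPic (dvd_of_eq_lcm_or hM) hq hqM]
  constructor
  · intro h0
    rw [h0, map_zero]
  · intro h0
    exact pullbackPic_injective hM (by rw [h0, map_zero])

end Fermat.Agent.S40x.Level.BaseChange
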