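import Fermat.Agent.S40x.Level.BaseChange
import Fermat.Agent.S35x.Degeneracy.HeckeES
import Fermat.Agent.S33x.Consumer.LevelTransport

/-!
# P-S44/S40, block R1/S, leaf (LT2)+(LT3) (helper60): level transfer on TORSION

Torsion-level consumer forms of `Level/BaseChange` in the vocabulary of the GEO literal
(`JTors`, `galTors`, `torsMap (degAlpha N q) m`, `pullbackTors`):

* `torsMap_degAlpha_pullbackTors`, `torsMap_degBeta_pullbackTors` :
  `N_α^{(M)} ∘ π'^* = π^* ∘ N_α^{(N)}` on `J₀(N q)[m]`;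
* `lcm_mul_right_of_coprime` : `lcm (N q) 4 = (lcm N 4) q` for `q` odd (so that `M q` is the good
  level of `N q` when `M` is the good level of `N`);
* `pullbackTors_injective`, `pullbackTors_galTors` (LT3): `π^*` is injective and Galois equivariant
  on torsion;
* `torsMap_degAlpha_eq_zero_iff`, `torsMap_degBeta_eq_zero_iff`;
* `degPair_vanishes_iff_map` : **GEO consumer**: for `V ≤ J₀(N q)[m]` and `V̂ := π'^* V`:
  `(α_*, β_*)` kills `V` iff `(α_*, β_*)` (level `(M, q)`) kills `V̂`;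
* `map_pullbackTors_galTors_mem` : `V̂` is Galois stable if `V` is.
-/

set_option autoImplicit false
set_option linter.unusedSectionVars false
set_option linter.style.haveILetI false

noncomputable section

open ModularCurve AlgebraicCurve

namespace Fermat.Agent.S40x.Level.BaseChangeTors

open Fermat.Agent.Gateway.Descent Fermat.Agent.Gateway.S31Red Fermat.Agent.S35x.Degeneracy
open Fermat.Agent.S33x.Consumer.LevelTransport Fermat.Agent.S40x.Level.BaseChange

local notation "Γℚ" => (AlgebraicClosure ℚ ≃ₐ[ℚ] AlgebraicClosure ℚ)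

variable {N M q : ℕ} [NeZero N] [NeZero M] [NeZero q]

/-- **(LT2), torsion level, `α`.** -/
theorem torsMap_degAlpha_pullbackTors (h : N ∣ M) (hq : q.Prime) (hqM : ¬ q ∣ M) (m : ℕ)
    (x : JTors (N * q) m) :
    torsMap (degAlpha M q) m (pullbackTors (Nat.mul_dvd_mul_right h q) m x) =
      pullbackTors h m (torsMap (degAlpha N q) m x) := by
  apply Subtype.ext
  rw [coe_torsMap, coe_pullbackTors, coe_pullbackTors, coe_torsMap]
  exact degAlpha_pullbackPic h hq hqM (x : JZero (N * q))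

/-- **(LT2), torsion level, `β`.** -/
theorem torsMap_degBeta_pullbackTors (h : N ∣ M) (hq : q.Prime) (hqM : ¬ q ∣ M) (m : ℕ)
    (x : JTors (N * q) m) :
    torsMap (degBeta M q) m (pullbackTors (Nat.mul_dvd_mul_right h q) m x) =
      pullbackTors h m (torsMap (degBeta N q) m x) := by
  apply Subtype.ext
  rw [coe_torsMap, coe_pullbackTors, coe_pullbackTors, coe_torsMap]
  exact degBeta_pullbackPic h hq hqM (x : JZero (N * q))

/-! ### Good levels -/

/-- `lcm (N q) c = (lcm N c) q` for `q` coprime to `c`. -/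
theorem lcm_mul_right_of_coprime (N : ℕ) {q c : ℕ} (hqc : Nat.Coprime q c) :
    Nat.lcm (N * q) c = Nat.lcm N c * q := by
  rcases Nat.eq_zero_or_pos c with rfl | hc
  · simp
  have hg : Nat.gcd (N * q) c = Nat.gcd N c := by
    rw [Nat.gcd_comm (N * q) c, Nat.gcd_comm N c, mul_comm N q]
    exact Nat.Coprime.gcd_mul_left_cancel_right N hqc
  have hgpos : 0 < Nat.gcd N c := Nat.gcd_pos_of_pos_right N hc
  have h1 : Nat.gcd (N * q) c * Nat.lcm (N * q) c = N * q * c := Nat.gcd_mul_lcm _ _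
  have h2 : Nat.gcd N c * Nat.lcm N c = N * c := Nat.gcd_mul_lcm _ _
  apply Nat.eq_of_mul_eq_mul_left hgpos
  rw [← hg, h1, hg, ← mul_assoc, h2]
  ring

/-- `M q` is the good level of `N q` when `M` is the good level of `N` (`q` prime to `6`). -/
theorem goodLevel_mul (hM : M = Nat.lcm N 4 ∨ M = Nat.lcm N 9) (hq2 : Nat.Coprime q 2)
    (hq3 : Nat.Coprime q 3) : M * q = Nat.lcm (N * q) 4 ∨ M * q = Nat.lcm (N * q) 9 := by
  rcases hM with rfl | rfl
  · left
    rw [lcm_mul_right_of_coprime N (show Nat.Coprime q 4 from Nat.Coprime.pow_right 2 hq2)]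
  · right
    rw [lcm_mul_right_of_coprime N (show Nat.Coprime q 9 from Nat.Coprime.pow_right 2 hq3)]

/-- **(LT3)** `π^*` is injective on torsion at a good level. -/
theorem pullbackTors_injective (hM : M = Nat.lcm N 4 ∨ M = Nat.lcm N 9) (m : ℕ) :
    Function.Injective (pullbackTors (dvd_of_eq_lcm_or hM) m) := by
  intro a b hab
  have h1 : pullbackPic (dvd_of_eq_lcm_or hM) (a : JZero N) =
      pullbackPic (dvd_of_eq_lcm_or hM) (b : JZero N) := by
    have := congrArg (fun y : JTors M m => (y : JZero M)) hab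
    simpa [coe_pullbackTors] using this
  exact Subtype.ext (pullbackPic_injective hM h1)

/-- **(LT3)** `π^*` is injective on torsion at a good level (numerical form: any `h : N ∣ M`). -/
theorem pullbackTors_injective' (h : N ∣ M) (hM : M = Nat.lcm N 4 ∨ M = Nat.lcm N 9) (m : ℕ) :
    Function.Injective (pullbackTors h m) :=
  pullbackTors_injective hM m

/-- **(LT3)** `π^*` commutes with the Galois action on torsion. -/
theorem pullbackTors_galTors (h : N ∣ M) (m : ℕ) (σ : Γℚ) (x : JTors N m) :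
    pullbackTors h m (galTors N m σ x) = galTors M m σ (pullbackTors h m x) := by
  apply Subtype.ext
  rw [coe_pullbackTors, coe_galTors_apply, coe_galTors_apply, coe_pullbackTors]
  exact pullbackPic_smul h σ (x : JZero N)

/-- **(LT2), torsion level, consumer form.** -/
theorem torsMap_degAlpha_eq_zero_iff (hM : M = Nat.lcm N 4 ∨ M = Nat.lcm N 9)
    (hq : q.Prime) (hqM : ¬ q ∣ M) (m : ℕ) (x : JTors (N * q) m) :
    torsMap (degAlpha N q) m x = 0 ↔
      torsMap (degAlpha M q) m
        (pullbackTors (Nat.mul_dvd_mul_right (dvd_of_eq_lcm_or hM) q) m x) = 0 := by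
  rw [torsMap_degAlpha_pullbackTors (dvd_of_eq_lcm_or hM) hq hqM]
  constructor
  · intro h0
    rw [h0, map_zero]
  · intro h0
    exact pullbackTors_injective hM m (by rw [h0, map_zero])

/-- **(LT2), torsion level, consumer form.** -/
theorem torsMap_degBeta_eq_zero_iff (hM : M = Nat.lcm N 4 ∨ M = Nat.lcm N 9)
    (hq : q.Prime) (hqM : ¬ q ∣ M) (m : ℕ) (x : JTors (N * q) m) :
    torsMap (degBeta N q) m x = 0 ↔
      torsMap (degBeta M q) m
        (pullbackTors (Nat.mul_dvd_mul_right (dvd_of_eq_lcm_or hM) q) m x) = 0 := by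
  rw [torsMap_degBeta_pullbackTors (dvd_of_eq_lcm_or hM) hq hqM]
  constructor
  · intro h0
    rw [h0, map_zero]
  · intro h0
    exact pullbackTors_injective hM m (by rw [h0, map_zero])

/-! ### The GEO consumer -/

/-- **GEO consumer.**  `V ≤ J₀(N q)[m]`, `V̂ := π'^* V ≤ J₀(M q)[m]` (`M` the good level of `N`):
the degeneracy pair `(α_*, β_*)` of level `(N, q)` kills `V` iff the pair of level `(M, q)` kills
`V̂`. -/
theorem degPair_vanishes_iff_map (hM : M = Nat.lcm N 4 ∨ M = Nat.lcm N 9)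
    (hq : q.Prime) (hqM : ¬ q ∣ M) (m : ℕ) (V : AddSubgroup (JTors (N * q) m)) :
    (∀ x ∈ V, torsMap (degAlpha N q) m x = 0 ∧ torsMap (degBeta N q) m x = 0) ↔
      ∀ y ∈ V.map (pullbackTors (Nat.mul_dvd_mul_right (dvd_of_eq_lcm_or hM) q) m),
        torsMap (degAlpha M q) m y = 0 ∧ torsMap (degBeta M q) m y = 0 := by
  constructor
  · rintro h y ⟨x, hx, rfl⟩
    exact ⟨(torsMap_degAlpha_eq_zero_iff hM hq hqM m x).mp (h x hx).1,
      (torsMap_degBeta_eq_zero_iff hM hq hqM m x).mp (h x hx).2⟩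
  · intro h x hx
    have := h _ (AddSubgroup.mem_map_of_mem _ hx)
    exact ⟨(torsMap_degAlpha_eq_zero_iff hM hq hqM m x).mpr this.1,
      (torsMap_degBeta_eq_zero_iff hM hq hqM m x).mpr this.2⟩

/-- contrapositive form, as in the GEO literal. -/
theorem exists_degPair_ne_zero_of_map (hM : M = Nat.lcm N 4 ∨ M = Nat.lcm N 9)
    (hq : q.Prime) (hqM : ¬ q ∣ M) (m : ℕ) (V : AddSubgroup (JTors (N * q) m))
    (h : ∃ y ∈ V.map (pullbackTors (Nat.mul_dvd_mul_right (dvd_of_eq_lcm_or hM) q) m),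
      torsMap (degAlpha M q) m y ≠ 0 ∨ torsMap (degBeta M q) m y ≠ 0) :
    ∃ x ∈ V, torsMap (degAlpha N q) m x ≠ 0 ∨ torsMap (degBeta N q) m x ≠ 0 := by
  by_contra hcon
  have hcon' : ∀ x ∈ V, torsMap (degAlpha N q) m x = 0 ∧ torsMap (degBeta N q) m x = 0 := by
    intro x hx
    constructor
    · by_contra h0
      exact hcon ⟨x, hx, Or.inl h0⟩
    · by_contra h0
      exact hcon ⟨x, hx, Or.inr h0⟩
  obtain ⟨y, hy, hy'⟩ := h
  have := (degPair_vanishes_iff_map hM hq hqM m V).mp hcon' y hy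
  rcases hy' with h1 | h1
  · exact h1 this.1
  · exact h1 this.2

/-- `V̂` is Galois stable if `V` is. -/
theorem map_pullbackTors_galTors_mem (h : N ∣ M) (m : ℕ) (V : AddSubgroup (JTors N m))
    (hV : ∀ σ : Γℚ, ∀ x ∈ V, galTors N m σ x ∈ V) (σ : Γℚ) :
    ∀ y ∈ V.map (pullbackTors h m), galTors M m σ y ∈ V.map (pullbackTors h m) := by
  rintro y ⟨x, hx, rfl⟩
  rw [← pullbackTors_galTors]
  exact AddSubgroup.mem_map_of_mem _ (hV σ x hx)

/-- the inertia/ramification shape transports: if `σ x - x ∈ L` on `V` then the same for the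
images. -/
theorem map_pullbackTors_sub_mem (h : N ∣ M) (m : ℕ) (V L : AddSubgroup (JTors N m)) (σ : Γℚ)
    (hσ : ∀ x ∈ V, galTors N m σ x - x ∈ L) :
    ∀ y ∈ V.map (pullbackTors h m), galTors M m σ y - y ∈ L.map (pullbackTors h m) := by
  rintro y ⟨x, hx, rfl⟩
  rw [← pullbackTors_galTors, ← map_sub]
  exact AddSubgroup.mem_map_of_mem _ (hσ x hx)

/-- scalar action of `σ` on `L` transports. -/
theorem map_pullbackTors_smul_eq (h : N ∣ M) (m : ℕ) (L : AddSubgroup (JTors N m)) (σ : Γℚ)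
    (a : ℕ) (hσ : ∀ s ∈ L, galTors N m σ s = a • s) :
    ∀ y ∈ L.map (pullbackTors h m), galTors M m σ y = a • y := by
  rintro y ⟨x, hx, rfl⟩
  rw [← pullbackTors_galTors, hσ x hx, map_nsmul]

/-- trivial action of `τ` on `V` transports. -/
theorem map_pullbackTors_fixed (h : N ∣ M) (m : ℕ) (V : AddSubgroup (JTors N m)) (τ : Γℚ)
    (hτ : ∀ x ∈ V, galTors N m τ x = x) :
    ∀ y ∈ V.map (pullbackTors h m), galTors M m τ y = y := by
  rintro y ⟨x, hx, rfl⟩
  rw [← pullbackTors_galTors, hτ x hx]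

/-- `L̂ ≠ V̂` if `L ≠ V` (good level). -/
theorem map_pullbackTors_ne (hM : M = Nat.lcm N 4 ∨ M = Nat.lcm N 9) (m : ℕ)
    (V L : AddSubgroup (JTors N m)) (hLV : L ≠ V) :
    L.map (pullbackTors (dvd_of_eq_lcm_or hM) m) ≠ V.map (pullbackTors (dvd_of_eq_lcm_or hM) m) :=
  fun h => hLV (AddSubgroup.map_injective (pullbackTors_injective hM m) h)

end Fermat.Agent.S40x.Level.BaseChangeTors
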