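import Fermat.Agent.S40x.Level.BaseChangeTors
import Fermat.Agent.Gateway.Descent.HeckeCompat

/-!
# P-S44/S40, block R1/S, leaf (LT3) (helper60): level transfer of the HECKE action on torsion

`N ∣ M`.  The pull-back `π^* : J₀(N)[m] → J₀(M)[m]` intertwines the Hecke actions of the export
contract (`HeckeTorsionAction.eta`) along the level homomorphism of Hecke algebras
`𝕋_S(M) → 𝕋_S(N)`, `T_ℓ ↦ T_ℓ` (no Eichler-Shimura needed: landed base change
`Gateway/Descent/HeckeCompat.pullbackPic_heckeOperatorAlong`).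

* `castLevel`, `castLevel_T` : transport of the Hecke algebra along an equality of levels;
* `levelHomOfDvd h hS : 𝕋_S(M) →+* 𝕋_S(N)` for `h : N ∣ M`, `levelHomOfDvd_T`;
* `pullbackTors_heckeOperatorAlong` : geometric form;
* `pullbackTors_eta` : `η_M(t) (π^* x) = π^* (η_N(r t) x)` for any ring hom `r` with `r T_ℓ = T_ℓ`;
  `pullbackTors_eta_levelHom` with `r = levelHomOfDvd`;
* `map_pullbackTors_eigen` : if `V ≤ J₀(N)[m]` is a `θ`-eigenspace piece then `V̂ = π^* V` is one for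
  `θ ∘ r`; `theta_comp_levelHomOfDvd_T` : `(θ ∘ r)(T_ℓ) = θ(T_ℓ)` (the non-Eisenstein witness
  transports).
-/

set_option autoImplicit false
set_option linter.unusedSectionVars false
set_option linter.style.haveILetI false

noncomputable section

open ModularCurve AlgebraicCurve CuspForm

namespace Fermat.Agent.S40x.Level.HeckeTransport

open Fermat.Agent.Gateway.Descent Fermat.Agent.Gateway.S31Red Fermat.Agent.Gateway.Hecke
open Fermat.Agent.S33x.Consumer.LevelTransport Fermat.Agent.S35x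

local notation "Qb" => AlgebraicClosure ℚ
local notation "Γℚ" => (AlgebraicClosure ℚ ≃ₐ[ℚ] AlgebraicClosure ℚ)

/-! ### Hecke algebras: change of level -/

section Algebra

variable {S : Set ℕ}

/-- transport of the Hecke algebra along an equality of levels -/
def castLevel {M M' : ℕ} [NeZero M] [NeZero M'] (e : M = M') :
    heckeAlgebra M 2 S →+* heckeAlgebra M' 2 S := by
  subst e
  exact RingHom.id _

theorem castLevel_T {M M' : ℕ} [NeZero M] [NeZero M'] (e : M = M') {ℓ : ℕ} (hℓ : ℓ.Prime)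
    (hℓM : ¬ ℓ ∣ M)
    (hℓM' : ¬ ℓ ∣ M') (hℓS : ℓ ∉ S) :
    castLevel e (heckeAlgebra.T hℓ hℓM hℓS) = heckeAlgebra.T hℓ hℓM' hℓS := by
  subst e
  rfl

theorem castLevel_castLevel {M M' : ℕ} [NeZero M] [NeZero M'] (e : M = M') (e' : M' = M)
    (y : heckeAlgebra M' 2 S) : castLevel e (castLevel e' y) = y := by
  subst e
  rfl

variable {N M : ℕ} [NeZero N] [NeZero M]

theorem neZero_div (h : N ∣ M) : NeZero (M / N) :=
  ⟨fun h0 => by
    have hM : M = 0 := by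
      rw [← Nat.mul_div_cancel' h, h0, mul_zero]
    exact NeZero.ne M hM⟩

/-- **The level homomorphism** `𝕋_S(M) → 𝕋_S(N)` for `N ∣ M`, `T_ℓ ↦ T_ℓ`. -/
def levelHomOfDvd (h : N ∣ M) (hS : ∀ p : ℕ, p.Prime → p ∣ M → p ∈ S) :
    heckeAlgebra M 2 S →+* heckeAlgebra N 2 S :=
  haveI := neZero_div h
  (levelHom (N := N) (q := M / N) (S := S)
    (fun p hp hpd => hS p hp (by rwa [Nat.mul_div_cancel' h] at hpd))).comp
    (castLevel (Nat.mul_div_cancel' h).symm)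

theorem levelHomOfDvd_T (h : N ∣ M) (hS : ∀ p : ℕ, p.Prime → p ∣ M → p ∈ S) {ℓ : ℕ}
    (hℓ : ℓ.Prime) (hℓN : ¬ ℓ ∣ N) (hℓM : ¬ ℓ ∣ M) (hℓS : ℓ ∉ S) :
    levelHomOfDvd h hS (heckeAlgebra.T hℓ hℓM hℓS) = heckeAlgebra.T hℓ hℓN hℓS := by
  haveI := neZero_div h
  have hℓM' : ¬ ℓ ∣ N * (M / N) := by rwa [Nat.mul_div_cancel' h]
  rw [levelHomOfDvd, RingHom.comp_apply, castLevel_T _ hℓ hℓM hℓM' hℓS]
  exact levelHom_T _ hℓ hℓN hℓM' hℓS

theorem levelHomOfDvd_surjective (h : N ∣ M) (hS : ∀ p : ℕ, p.Prime → p ∣ M → p ∈ S) :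
    Function.Surjective (levelHomOfDvd (N := N) (M := M) h hS) := by
  haveI := neZero_div h
  have h1 : Function.Surjective (castLevel (S := S) (Nat.mul_div_cancel' h).symm) := by
    intro y
    exact ⟨castLevel (Nat.mul_div_cancel' h) y, castLevel_castLevel _ _ y⟩
  rw [levelHomOfDvd, RingHom.coe_comp]
  exact (levelHom_surjective _).comp h1

end Algebra

/-! ### Torsion: `π^*` and the Hecke action -/

variable {N M : ℕ} [NeZero N] [NeZero M] {S : Finset ℕ}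

/-- **geometric form**: `π^*` commutes with `T_ℓ`, `ℓ ∤ M`, on torsion. -/
theorem pullbackTors_heckeOperatorAlong (h : N ∣ M) {ℓ : ℕ} (hℓ : ℓ.Prime) (hℓM : ¬ ℓ ∣ M)
    (m : ℕ) (x : JTors N m) :
    haveI : NeZero ℓ := ⟨hℓ.ne_zero⟩
    heckeOperatorAlong Qb M ℓ ((pullbackTors h m x : JTors M m) : JZero M) =
      pullbackPic h (heckeOperatorAlong Qb N ℓ (x : JZero N)) := by
  haveI : NeZero ℓ := ⟨hℓ.ne_zero⟩
  rw [coe_pullbackTors]
  exact (pullbackPic_heckeOperatorAlong ℓ h hℓ hℓM (x : JZero N)).symm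

/-- auxiliary: additivity step. -/
theorem eta_add_aux' (h : N ∣ M) (E : HeckeTorsionAction N S) (E' : HeckeTorsionAction M S)
    (r : heckeAlgebra M 2 (↑S : Set ℕ) →+* heckeAlgebra N 2 (↑S : Set ℕ)) {m : ℕ} (hm : 0 < m)
    (a b : heckeAlgebra M 2 (↑S : Set ℕ)) (x : JTors N m)
    (ha : E'.eta m hm a (pullbackTors h m x) = pullbackTors h m (E.eta m hm (r a) x))
    (hb : E'.eta m hm b (pullbackTors h m x) = pullbackTors h m (E.eta m hm (r b) x)) :
    E'.eta m hm (a + b) (pullbackTors h m x) = pullbackTors h m (E.eta m hm (r (a + b)) x) := by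
  have h1 : E'.eta m hm (a + b) (pullbackTors h m x) =
      E'.eta m hm a (pullbackTors h m x) + E'.eta m hm b (pullbackTors h m x) := by
    rw [map_add]; rfl
  have h2 : E.eta m hm (r (a + b)) x = E.eta m hm (r a) x + E.eta m hm (r b) x := by
    rw [map_add, map_add]; rfl
  rw [h1, h2, map_add, ha, hb]

/-- auxiliary: multiplicativity step. -/
theorem eta_mul_aux' (h : N ∣ M) (E : HeckeTorsionAction N S) (E' : HeckeTorsionAction M S)
    (r : heckeAlgebra M 2 (↑S : Set ℕ) →+* heckeAlgebra N 2 (↑S : Set ℕ)) {m : ℕ} (hm : 0 < m)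
    (a b : heckeAlgebra M 2 (↑S : Set ℕ)) (x : JTors N m)
    (ha : ∀ x, E'.eta m hm a (pullbackTors h m x) = pullbackTors h m (E.eta m hm (r a) x))
    (hb : E'.eta m hm b (pullbackTors h m x) = pullbackTors h m (E.eta m hm (r b) x)) :
    E'.eta m hm (a * b) (pullbackTors h m x) = pullbackTors h m (E.eta m hm (r (a * b)) x) := by
  have h1 : E'.eta m hm (a * b) (pullbackTors h m x) =
      E'.eta m hm a (E'.eta m hm b (pullbackTors h m x)) := by
    rw [map_mul]; rfl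
  have h2 : E.eta m hm (r (a * b)) x = E.eta m hm (r a) (E.eta m hm (r b) x) := by
    rw [map_mul, map_mul]; rfl
  rw [h1, h2, hb, ha]

/-- **(LT3), Hecke.**  `π^*` intertwines the Hecke actions on `m`-torsion of the two levels along
any ring homomorphism `r : 𝕋_S(M) → 𝕋_S(N)` with `r T_ℓ = T_ℓ`, provided `S` contains the primes
dividing `M`. -/
theorem pullbackTors_eta (h : N ∣ M) (hMS : ∀ p : ℕ, p.Prime → p ∣ M → p ∈ S)
    (E : HeckeTorsionAction N S) (E' : HeckeTorsionAction M S)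
    (r : heckeAlgebra M 2 (↑S : Set ℕ) →+* heckeAlgebra N 2 (↑S : Set ℕ))
    (hr : ∀ (ℓ : ℕ) (hℓ : ℓ.Prime) (hℓN : ¬ ℓ ∣ N) (hℓM : ¬ ℓ ∣ M) (hℓS : ℓ ∉ (↑S : Set ℕ)),
      r (heckeAlgebra.T hℓ hℓM hℓS) = heckeAlgebra.T hℓ hℓN hℓS)
    {m : ℕ} (hm : 0 < m) (t : heckeAlgebra M 2 (↑S : Set ℕ)) (x : JTors N m) :
    E'.eta m hm t (pullbackTors h m x) = pullbackTors h m (E.eta m hm (r t) x) := by
  revert x
  obtain ⟨t, ht⟩ := t
  induction ht using Algebra.adjoin_induction with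
  | mem y hy =>
    intro x
    rcases hy with ⟨ℓ, hℓ, hℓM, hℓS, rfl⟩ | ⟨p, hpM, hp, hpS, rfl⟩
    · have hℓN : ¬ ℓ ∣ N := fun hd => hℓM (hd.trans h)
      have hT : (⟨heckeTLin 2 hℓ hℓM, Algebra.subset_adjoin
          (Or.inl ⟨ℓ, hℓ, hℓM, hℓS, rfl⟩)⟩ : heckeAlgebra M 2 (↑S : Set ℕ))
          = heckeAlgebra.T hℓ hℓM hℓS := rfl
      rw [hT, hr ℓ hℓ hℓN hℓM hℓS]
      apply Subtype.ext
      rw [E'.eta_T]
      refine (pullbackTors_heckeOperatorAlong h hℓ hℓM m x).trans ?_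
      rw [coe_pullbackTors, E.eta_T]
    · exact absurd (hMS p hp hpM) (by exact_mod_cast hpS)
  | algebraMap n =>
    intro x
    have h1 : (⟨algebraMap ℤ _ n, Subalgebra.algebraMap_mem _ n⟩ :
        heckeAlgebra M 2 (↑S : Set ℕ)) = (n : heckeAlgebra M 2 (↑S : Set ℕ)) := by
      apply Subtype.ext
      simp
    rw [h1, map_intCast, map_intCast, map_intCast]
    rw [show ((n : AddMonoid.End (JTors M m)) (pullbackTors h m x)) = n • pullbackTors h m x from by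
        simp [AddMonoid.End.intCast_apply],
      show ((n : AddMonoid.End (JTors N m)) x) = n • x from by
        simp [AddMonoid.End.intCast_apply]]
    rw [map_zsmul]
  | add y z hy hz hy' hz' =>
    intro x
    exact eta_add_aux' h E E' r hm ⟨y, hy⟩ ⟨z, hz⟩ x (hy' x) (hz' x)
  | mul y z hy hz hy' hz' =>
    intro x
    exact eta_mul_aux' h E E' r hm ⟨y, hy⟩ ⟨z, hz⟩ x hy' (hz' x)

/-- **(LT3), Hecke**, with `r = levelHomOfDvd`. -/
theorem pullbackTors_eta_levelHom (h : N ∣ M) (hMS : ∀ p : ℕ, p.Prime → p ∣ M → p ∈ (↑S : Set ℕ))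
    (E : HeckeTorsionAction N S) (E' : HeckeTorsionAction M S)
    {m : ℕ} (hm : 0 < m) (t : heckeAlgebra M 2 (↑S : Set ℕ)) (x : JTors N m) :
    E'.eta m hm t (pullbackTors h m x) =
      pullbackTors h m (E.eta m hm (levelHomOfDvd h hMS t) x) :=
  pullbackTors_eta h (fun p hp hpM => by exact_mod_cast hMS p hp hpM) E E' (levelHomOfDvd h hMS)
    (fun ℓ hℓ hℓN hℓM hℓS => levelHomOfDvd_T h hMS hℓ hℓN hℓM hℓS) hm t x

/-! ### Eigenspaces -/

/-- **Transport of the eigen-property.**  `p` prime, any `𝔽_p`-module structures on the two torsion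
groups (e.g. `AddCommGroup.zmodModule`): if `t x = θ(t) x` on `V` then `t' y = θ(r t') y` on
`V̂ = π^* V`. -/
theorem map_pullbackTors_eigen {p : ℕ} [Fact p.Prime] (h : N ∣ M)
    (hMS : ∀ p : ℕ, p.Prime → p ∣ M → p ∈ S)
    (E : HeckeTorsionAction N S) (E' : HeckeTorsionAction M S)
    (r : heckeAlgebra M 2 (↑S : Set ℕ) →+* heckeAlgebra N 2 (↑S : Set ℕ))
    (hr : ∀ (ℓ : ℕ) (hℓ : ℓ.Prime) (hℓN : ¬ ℓ ∣ N) (hℓM : ¬ ℓ ∣ M) (hℓS : ℓ ∉ (↑S : Set ℕ)),
      r (heckeAlgebra.T hℓ hℓM hℓS) = heckeAlgebra.T hℓ hℓN hℓS)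
    {m : ℕ} (hm : 0 < m) [Module (ZMod p) (JTors N m)] [Module (ZMod p) (JTors M m)]
    (θ : heckeAlgebra N 2 (↑S : Set ℕ) →+* ZMod p) (V : AddSubgroup (JTors N m))
    (hV : ∀ x ∈ V, ∀ t, E.eta m hm t x = θ t • x) :
    ∀ y ∈ V.map (pullbackTors h m), ∀ t', E'.eta m hm t' y = (θ.comp r) t' • y := by
  rintro y ⟨x, hx, rfl⟩ t'
  rw [pullbackTors_eta h hMS E E' r hr hm t' x, hV x hx (r t'), RingHom.comp_apply]
  exact (AddMonoidHom.toZModLinearMap p (pullbackTors h m)).map_smul (θ (r t')) x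

/-- the transported character has the same values at the `T_ℓ` (so the non-Eisenstein witness
transports). -/
theorem theta_comp_levelHomOfDvd_T {p : ℕ} (h : N ∣ M)
    (hMS : ∀ p : ℕ, p.Prime → p ∣ M → p ∈ (↑S : Set ℕ))
    (θ : heckeAlgebra N 2 (↑S : Set ℕ) →+* ZMod p) {ℓ : ℕ} (hℓ : ℓ.Prime) (hℓN : ¬ ℓ ∣ N)
    (hℓM : ¬ ℓ ∣ M) (hℓS : ℓ ∉ (↑S : Set ℕ)) :
    (θ.comp (levelHomOfDvd h hMS)) (heckeAlgebra.T hℓ hℓM hℓS) =
      θ (heckeAlgebra.T hℓ hℓN hℓS) := by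
  rw [RingHom.comp_apply, levelHomOfDvd_T h hMS hℓ hℓN hℓM hℓS]

end Fermat.Agent.S40x.Level.HeckeTransport
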